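import Mathlib

/-!
# Finite-level chord, file 1: rings with a nilpotent ideal

* `isAdicComplete_of_pow_eq_bot` : if `I ^ N = ⊥` then the ring is `I`-adically complete;
* `isLocalRing_of_isMaximal_of_pow_eq_bot` : a ring with a maximal ideal `I`, `I ^ N = ⊥`, is
  local;
* `maximalIdeal_eq_of_isMaximal` : and `I` is its maximal ideal.
-/

set_option autoImplicit false

namespace Fermat.Agent.FF2.ChordFin

variable {R : Type*} [CommRing R]

/-- A ring is complete for every nilpotent ideal. -/
theorem isAdicComplete_of_pow_eq_bot (I : Ideal R) (N : ℕ) (h : I ^ N = ⊥) :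
    IsAdicComplete I R := by
  have hle : ∀ n, N ≤ n → (I ^ n • ⊤ : Submodule R R) = ⊥ := by
    intro n hn
    have h1 : I ^ n ≤ I ^ N := Ideal.pow_le_pow_right hn
    rw [h] at h1
    rw [smul_eq_mul, Ideal.mul_top]
    exact le_bot_iff.1 h1
  have hH : IsHausdorff I R := ⟨fun x hx => by
    have h1 := hx N
    rw [hle N le_rfl, SModEq.bot] at h1
    exact h1⟩
  have hP : IsPrecomplete I R := ⟨fun f hf => by
    refine ⟨f N, fun n => ?_⟩
    rcases le_total n N with hn | hn
    · exact hf hn
    · have h1 := hf (m := N) (n := n) hn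
      rw [hle N le_rfl, SModEq.bot] at h1
      rw [h1]⟩
  exact { }

/-- A ring with a nilpotent maximal ideal is local. -/
theorem isLocalRing_of_isMaximal_of_pow_eq_bot (I : Ideal R) [hI : I.IsMaximal] (N : ℕ)
    (h : I ^ N = ⊥) : IsLocalRing R := by
  have hnil : ∀ a ∈ I, IsNilpotent a := fun a ha => ⟨N, by
    have h1 : a ^ N ∈ I ^ N := Ideal.pow_mem_pow ha N
    rwa [h] at h1⟩
  have : Nontrivial R := ⟨⟨0, 1, fun h01 => hI.ne_top ((Ideal.eq_top_iff_one I).2
    (h01 ▸ I.zero_mem))⟩⟩
  refine IsLocalRing.of_isUnit_or_isUnit_one_sub_self fun a => ?_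
  by_cases ha : a ∈ I
  · exact Or.inr (hnil a ha).isUnit_one_sub
  · left
    obtain ⟨y, i, hi, hyi⟩ := hI.exists_inv ha
    have h1 : y * a = 1 - i := by rw [← hyi]; ring
    have h2 : IsUnit (y * a) := by rw [h1]; exact (hnil i hi).isUnit_one_sub
    exact isUnit_of_mul_isUnit_right h2

theorem maximalIdeal_eq_of_isMaximal [IsLocalRing R] (I : Ideal R) [hI : I.IsMaximal] :
    IsLocalRing.maximalIdeal R = I := (IsLocalRing.eq_maximalIdeal hI).symm

end Fermat.Agent.FF2.ChordFin
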