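import Mathlib
import Fermat.Agent.FF2.ChordFin.Nilp

/-!
# Finite-level chord, file 2: the universal Artinian ring `A_N = W[X_σ] ⧸ 𝔫^(N+1)`

`W` a local ring (NOT complete), `𝔫 = (𝔪_W, X_v)` the augmentation ideal of `MvPolynomial σ W`
(kernel of `MvPolynomial σ W → W → k`).  `FinRing W σ N := MvPolynomial σ W ⧸ 𝔫^(N+1)` is a local
`W`-algebra with nilpotent maximal ideal (hence complete), with local structure map, and

* `finX v` : the tautological point, in the maximal ideal;
* `finEval hWJ p hp : FinRing W σ N →ₐ[W] B ⧸ J^(N+1)` : evaluation at ANY point `p : σ → J` of ANY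
  `W`-algebra `B` with an ideal `J ⊇ 𝔪_W B` (no completeness), `finEval (finX v) = mk (p v)`,
  `finEval (mk q) = mk (aeval p q)`, and it maps the maximal ideal into `J.map mk`.
-/

set_option autoImplicit false
set_option linter.unusedSectionVars false

namespace Fermat.Agent.FF2.ChordFin

open IsLocalRing

variable (W : Type*) [CommRing W] [IsLocalRing W] (σ : Type*)

/-- The augmentation `W[X_σ] → W → k`. -/
noncomputable def aug : MvPolynomial σ W →+* ResidueField W :=
  (residue W).comp MvPolynomial.constantCoeff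

theorem aug_surjective : Function.Surjective (aug W σ) := by
  intro x
  obtain ⟨w, rfl⟩ := Ideal.Quotient.mk_surjective (I := maximalIdeal W) x
  exact ⟨MvPolynomial.C w, by simp [aug]; rfl⟩

/-- The augmentation ideal `𝔫 = (𝔪_W, X_v)`. -/
noncomputable def augIdeal : Ideal (MvPolynomial σ W) := RingHom.ker (aug W σ)

instance augIdeal_isMaximal : (augIdeal W σ).IsMaximal :=
  RingHom.ker_isMaximal_of_surjective (aug W σ) (aug_surjective W σ)

/-- The universal Artinian ring of level `N`. -/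
abbrev FinRing (N : ℕ) : Type _ := MvPolynomial σ W ⧸ (augIdeal W σ) ^ (N + 1)

/-- The augmentation of `FinRing`. -/
noncomputable def finAug (N : ℕ) : FinRing W σ N →+* ResidueField W :=
  Ideal.Quotient.lift _ (aug W σ) (fun a ha =>
    (Ideal.pow_le_self (Nat.succ_ne_zero N) ha : a ∈ augIdeal W σ))

theorem finAug_mk (N : ℕ) (q : MvPolynomial σ W) :
    finAug W σ N (Ideal.Quotient.mk _ q) = aug W σ q := rfl

theorem finAug_surjective (N : ℕ) : Function.Surjective (finAug W σ N) := by
  intro x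
  obtain ⟨q, rfl⟩ := aug_surjective W σ x
  exact ⟨Ideal.Quotient.mk _ q, rfl⟩

/-- The maximal ideal of `FinRing`. -/
noncomputable def finMax (N : ℕ) : Ideal (FinRing W σ N) := RingHom.ker (finAug W σ N)

instance finMax_isMaximal (N : ℕ) : (finMax W σ N).IsMaximal :=
  RingHom.ker_isMaximal_of_surjective (finAug W σ N) (finAug_surjective W σ N)

theorem finMax_eq_map (N : ℕ) :
    finMax W σ N = (augIdeal W σ).map (Ideal.Quotient.mk ((augIdeal W σ) ^ (N + 1))) :=
  Ideal.ker_quotient_lift _ _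

theorem finMax_pow (N : ℕ) : finMax W σ N ^ (N + 1) = ⊥ := by
  rw [finMax_eq_map, ← Ideal.map_pow, Ideal.map_quotient_self]

instance isLocalRing_finRing (N : ℕ) : IsLocalRing (FinRing W σ N) :=
  isLocalRing_of_isMaximal_of_pow_eq_bot (finMax W σ N) (N + 1) (finMax_pow W σ N)

theorem maximalIdeal_finRing (N : ℕ) : maximalIdeal (FinRing W σ N) = finMax W σ N :=
  maximalIdeal_eq_of_isMaximal _

instance isAdicComplete_finRing (N : ℕ) :
    IsAdicComplete (maximalIdeal (FinRing W σ N)) (FinRing W σ N) :=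
  isAdicComplete_of_pow_eq_bot _ (N + 1) (by rw [maximalIdeal_finRing, finMax_pow])

theorem finAug_algebraMap (N : ℕ) (w : W) :
    finAug W σ N (algebraMap W (FinRing W σ N) w) = residue W w := by
  have : algebraMap W (FinRing W σ N) w = Ideal.Quotient.mk _ (MvPolynomial.C w) := rfl
  rw [this, finAug_mk]
  simp [aug]

instance isLocalHom_algebraMap_finRing (N : ℕ) :
    IsLocalHom (algebraMap W (FinRing W σ N)) where
  map_nonunit w hw := by
    have h1 := hw.map (finAug W σ N)
    rw [finAug_algebraMap] at h1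
    rw [← notMem_maximalIdeal, ← residue_eq_zero_iff]
    exact h1.ne_zero

variable {W σ}

/-- The tautological point of `FinRing`: the classes of the variables. -/
noncomputable def finX (N : ℕ) (v : σ) : FinRing W σ N :=
  Ideal.Quotient.mk _ (MvPolynomial.X v)

theorem finX_mem (N : ℕ) (v : σ) : finX (W := W) N v ∈ maximalIdeal (FinRing W σ N) := by
  rw [maximalIdeal_finRing]
  show finAug W σ N (Ideal.Quotient.mk _ (MvPolynomial.X v)) = 0
  rw [finAug_mk]
  simp [aug]

section Eval

variable {B : Type*} [CommRing B] [Algebra W B] (J : Ideal B)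

/-- `aeval p q ≡ constantCoeff q` modulo the ideal generated by the point. -/
theorem aeval_sub_constantCoeff_mem (p : σ → B) (hp : ∀ v, p v ∈ J) (q : MvPolynomial σ W) :
    MvPolynomial.aeval p q - algebraMap W B (MvPolynomial.constantCoeff q) ∈ J := by
  induction q using MvPolynomial.induction_on with
  | C a => simp
  | add q₁ q₂ h₁ h₂ =>
    have : MvPolynomial.aeval p (q₁ + q₂) - algebraMap W B (MvPolynomial.constantCoeff (q₁ + q₂))
        = (MvPolynomial.aeval p q₁ - algebraMap W B (MvPolynomial.constantCoeff q₁))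
          + (MvPolynomial.aeval p q₂ - algebraMap W B (MvPolynomial.constantCoeff q₂)) := by
      simp only [map_add]; ring
    rw [this]
    exact J.add_mem h₁ h₂
  | mul_X q v _ =>
    simp only [map_mul, MvPolynomial.aeval_X, MvPolynomial.constantCoeff_X, mul_zero, map_zero,
      sub_zero]
    exact J.mul_mem_left _ (hp v)

theorem aeval_mem_of_mem_augIdeal (hWJ : ∀ w ∈ maximalIdeal W, algebraMap W B w ∈ J)
    (p : σ → B) (hp : ∀ v, p v ∈ J) {q : MvPolynomial σ W} (hq : q ∈ augIdeal W σ) :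
    MvPolynomial.aeval p q ∈ J := by
  have h1 := aeval_sub_constantCoeff_mem J p hp q
  have h2 : MvPolynomial.constantCoeff q ∈ maximalIdeal W := by
    have : aug W σ q = 0 := hq
    rwa [aug, RingHom.comp_apply, residue_eq_zero_iff] at this
  have h3 := J.add_mem h1 (hWJ _ h2)
  rwa [sub_add_cancel] at h3

theorem aeval_mem_pow_of_mem_augIdeal_pow (hWJ : ∀ w ∈ maximalIdeal W, algebraMap W B w ∈ J)
    (p : σ → B) (hp : ∀ v, p v ∈ J) (n : ℕ) {q : MvPolynomial σ W}
    (hq : q ∈ augIdeal W σ ^ n) : MvPolynomial.aeval p q ∈ J ^ n := by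
  have h1 : (augIdeal W σ).map (MvPolynomial.aeval p : MvPolynomial σ W →ₐ[W] B) ≤ J := by
    rw [Ideal.map_le_iff_le_comap]
    intro q hq
    exact aeval_mem_of_mem_augIdeal J hWJ p hp hq
  have h2 : (augIdeal W σ ^ n).map (MvPolynomial.aeval p : MvPolynomial σ W →ₐ[W] B) ≤ J ^ n := by
    rw [Ideal.map_pow]
    exact Ideal.pow_right_mono h1 n
  exact h2 (Ideal.mem_map_of_mem _ hq)

/-- **Evaluation at finite level**: `A_N → B ⧸ J^(N+1)`, at any point of `J`. -/
noncomputable def finEval (N : ℕ) (hWJ : ∀ w ∈ maximalIdeal W, algebraMap W B w ∈ J)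
    (p : σ → B) (hp : ∀ v, p v ∈ J) : FinRing W σ N →ₐ[W] B ⧸ J ^ (N + 1) :=
  Ideal.Quotient.liftₐ _ ((Ideal.Quotient.mkₐ W (J ^ (N + 1))).comp (MvPolynomial.aeval p))
    (fun q hq => by
      rw [AlgHom.comp_apply, Ideal.Quotient.mkₐ_eq_mk, Ideal.Quotient.eq_zero_iff_mem]
      exact aeval_mem_pow_of_mem_augIdeal_pow J hWJ p hp (N + 1) hq)

theorem finEval_mk (N : ℕ) (hWJ : ∀ w ∈ maximalIdeal W, algebraMap W B w ∈ J)
    (p : σ → B) (hp : ∀ v, p v ∈ J) (q : MvPolynomial σ W) :
    finEval J N hWJ p hp (Ideal.Quotient.mk _ q)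
      = Ideal.Quotient.mk (J ^ (N + 1)) (MvPolynomial.aeval p q) := rfl

theorem finEval_finX (N : ℕ) (hWJ : ∀ w ∈ maximalIdeal W, algebraMap W B w ∈ J)
    (p : σ → B) (hp : ∀ v, p v ∈ J) (v : σ) :
    finEval J N hWJ p hp (finX N v) = Ideal.Quotient.mk (J ^ (N + 1)) (p v) := by
  rw [finX, finEval_mk, MvPolynomial.aeval_X]

theorem finEval_mem (N : ℕ) (hWJ : ∀ w ∈ maximalIdeal W, algebraMap W B w ∈ J)
    (p : σ → B) (hp : ∀ v, p v ∈ J) {a : FinRing W σ N}
    (ha : a ∈ maximalIdeal (FinRing W σ N)) :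
    finEval J N hWJ p hp a ∈ J.map (Ideal.Quotient.mk (J ^ (N + 1))) := by
  obtain ⟨q, rfl⟩ := Ideal.Quotient.mk_surjective a
  rw [maximalIdeal_finRing] at ha
  have hq : q ∈ augIdeal W σ := by
    have : finAug W σ N (Ideal.Quotient.mk _ q) = 0 := ha
    rwa [finAug_mk] at this
  rw [finEval_mk]
  exact Ideal.mem_map_of_mem _ (aeval_mem_of_mem_augIdeal J hWJ p hp hq)

/-- The ideal `J.map mk` of `B ⧸ J^(N+1)` is nilpotent, hence the quotient is complete for it. -/
theorem isAdicComplete_quotient_pow (N : ℕ) :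
    IsAdicComplete (J.map (Ideal.Quotient.mk (J ^ (N + 1)))) (B ⧸ J ^ (N + 1)) :=
  isAdicComplete_of_pow_eq_bot _ (N + 1) (by rw [← Ideal.map_pow, Ideal.map_quotient_self])

end Eval

end Fermat.Agent.FF2.ChordFin
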