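import Mathlib
import Fermat.Agent.FF2.ChordFin.Univ
import Fermat.Agent.FF2.Chord.Exists

/-!
# Finite-level chord, file 3: THE CHORD CONGRUENCE (no completion, no power-series evaluation)

`chord_congruence` : under the special-fibre hypotheses of `exists_chordSol`, for every `N` there
are polynomials `Q o ∈ W[X_d, Y_d, Z_s]` (depending only on the chord data and `N`) such that for
EVERY `W`-algebra `B` (not complete), every ideal `J ⊇ 𝔪_W B`, every point `P = (x, y, z)` with
coordinates in `J`, every section `f : ι → B` with a unit coordinate and every `w : O → J` with the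
EXACT divisibilities in `PowerSeries B`

* `(X - C x_d) * (X - C y_d) ∣ T_d f`, `(X - C z_s) ∣ T_s f`, `ρ0 f = 0`  (the section vanishes on
  the input divisor), and
* `(X - C w_o) ∣ T'_o f`  (its zero in the output disc `o` has coordinate `w_o`),

one has `w o ≡ Q o (x, y, z)  mod J ^ (N + 1)`.
-/

set_option autoImplicit false
set_option linter.unusedSectionVars false

namespace Fermat.Agent.FF2.ChordFin

open IsLocalRing PowerSeries Fermat.Agent.FF2.Chord Fermat.Agent.FF2.Weier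

variable {W : Type*} [CommRing W] [IsLocalRing W] {ι D S ν O : Type*} [Fintype ι]
  [Fintype D] [Fintype S] [Fintype ν] [DecidableEq D] [DecidableEq S] [DecidableEq ν]

/-- The tautological point of the universal Artinian ring. -/
noncomputable def finPt (N : ℕ) :
    Pt (FinRing W (D ⊕ D ⊕ S) N) (maximalIdeal (FinRing W (D ⊕ D ⊕ S) N)) D S where
  x d := finX N (Sum.inl d)
  y d := finX N (Sum.inr (Sum.inl d))
  z s := finX N (Sum.inr (Sum.inr s))
  hx _ := finX_mem N _
  hy _ := finX_mem N _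
  hz _ := finX_mem N _

/-- The coordinates of a point as one family indexed by the variables. -/
def Pt.coords {B : Type*} [CommRing B] {J : Ideal B} (P : Pt B J D S) : D ⊕ D ⊕ S → B :=
  Sum.elim P.x (Sum.elim P.y P.z)

theorem Pt.coords_mem {B : Type*} [CommRing B] {J : Ideal B} (P : Pt B J D S)
    (v : D ⊕ D ⊕ S) : Pt.coords P v ∈ J := by
  rcases v with d | d | s
  · exact P.hx d
  · exact P.hy d
  · exact P.hz s

theorem dvd_map {B B' : Type*} [CommRing B] [CommRing B'] (φ : B →+* B') {a : B}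
    {F : PowerSeries B} (h : (PowerSeries.X - PowerSeries.C a) ∣ F) :
    (PowerSeries.X - PowerSeries.C (φ a)) ∣ F.map φ := by
  obtain ⟨q, rfl⟩ := h
  exact ⟨q.map φ, by rw [map_mul, map_sub, PowerSeries.map_X, PowerSeries.map_C]⟩

theorem dvd_map₂ {B B' : Type*} [CommRing B] [CommRing B'] (φ : B →+* B') {a b : B}
    {F : PowerSeries B}
    (h : (PowerSeries.X - PowerSeries.C a) * (PowerSeries.X - PowerSeries.C b) ∣ F) :
    (PowerSeries.X - PowerSeries.C (φ a)) * (PowerSeries.X - PowerSeries.C (φ b)) ∣ F.map φ := by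
  obtain ⟨q, rfl⟩ := h
  exact ⟨q.map φ, by
    rw [map_mul, map_mul, map_sub, map_sub, PowerSeries.map_X, PowerSeries.map_C,
      PowerSeries.map_C]⟩

/-- **THE CHORD CONGRUENCE.** -/
theorem chord_congruence (C : ChordData W ι D S ν O)
    (hcard : Fintype.card ι = Fintype.card (D ⊕ D ⊕ S ⊕ ν) + 1)
    (H1 : Function.Surjective ((cond0 C).map (residue W)).mulVecLin)
    (f0 : ι → W) (hf0u : ∃ i, IsUnit (f0 i))
    (hf0 : ∀ c, (cond0 C).mulVec f0 c ∈ maximalIdeal W)
    (hO0 : ∀ o, ∑ i, f0 i * coeff 0 (C.τO o i) ∈ maximalIdeal W)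
    (hO1 : ∀ o, IsUnit (∑ i, f0 i * coeff 1 (C.τO o i))) (N : ℕ) :
    ∃ Q : O → MvPolynomial (D ⊕ D ⊕ S) W,
      ∀ {B : Type*} [CommRing B] [Algebra W B] (J : Ideal B)
        (_hWJ : ∀ w ∈ maximalIdeal W, algebraMap W B w ∈ J) (P : Pt B J D S) (f : ι → B)
        (_hf : ∃ i, IsUnit (f i)) (w : O → B) (_hw : ∀ o, w o ∈ J)
        (_h1 : ∀ d, (PowerSeries.X - PowerSeries.C (P.x d)) *
          (PowerSeries.X - PowerSeries.C (P.y d)) ∣ tay B (C.τD d) f)
        (_h2 : ∀ s, (PowerSeries.X - PowerSeries.C (P.z s)) ∣ tay B (C.τS s) f)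
        (_h3 : (C.ρ0.map (algebraMap W B)).mulVec f = 0)
        (_h4 : ∀ o, (PowerSeries.X - PowerSeries.C (w o)) ∣ tay B (C.τO o) f) (o : O),
        w o - MvPolynomial.aeval (Pt.coords P) (Q o) ∈ J ^ (N + 1) := by
  classical
  obtain ⟨s, -⟩ := exists_chordSol C hcard H1 f0 hf0u hf0 hO0 hO1
    (FinRing W (D ⊕ D ⊕ S) N) (finPt N)
  choose Q hQ using fun o => Ideal.Quotient.mk_surjective (s.Wser o)
  refine ⟨Q, ?_⟩
  intro B _ _ J hWJ P f hf w hw h1 h2 h3 h4 o
  -- the finite-level target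
  let BN := B ⧸ J ^ (N + 1)
  let JN : Ideal BN := J.map (Ideal.Quotient.mk (J ^ (N + 1)))
  have : IsAdicComplete JN BN := isAdicComplete_quotient_pow J N
  let mkA : B →ₐ[W] BN := Ideal.Quotient.mkₐ W (J ^ (N + 1))
  have hmk : ∀ b, mkA b = Ideal.Quotient.mk (J ^ (N + 1)) b := fun _ => rfl
  let ρ : FinRing W (D ⊕ D ⊕ S) N →ₐ[W] BN := finEval J N hWJ (Pt.coords P) (Pt.coords_mem P)
  have hρ : ∀ a ∈ maximalIdeal (FinRing W (D ⊕ D ⊕ S) N),
      (ρ : FinRing W (D ⊕ D ⊕ S) N →+* BN) a ∈ JN :=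
    fun a ha => finEval_mem J N hWJ (Pt.coords P) (Pt.coords_mem P) ha
  let sB := s.map ρ hρ
  -- coordinates of the specialised point
  have hx : ∀ d, ((finPt N).map (ρ : FinRing W (D ⊕ D ⊕ S) N →+* BN) hρ).x d = mkA (P.x d) := fun d =>
    finEval_finX J N hWJ (Pt.coords P) (Pt.coords_mem P) (Sum.inl d)
  have hy : ∀ d, ((finPt N).map (ρ : FinRing W (D ⊕ D ⊕ S) N →+* BN) hρ).y d = mkA (P.y d) := fun d =>
    finEval_finX J N hWJ (Pt.coords P) (Pt.coords_mem P) (Sum.inr (Sum.inl d))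
  have hz : ∀ s', ((finPt N).map (ρ : FinRing W (D ⊕ D ⊕ S) N →+* BN) hρ).z s' = mkA (P.z s') := fun s' =>
    finEval_finX J N hWJ (Pt.coords P) (Pt.coords_mem P) (Sum.inr (Sum.inr s'))
  -- the reduced section
  let fN : ι → BN := fun i => mkA (f i)
  have htay : ∀ τ : ι → PowerSeries W, tay BN τ fN = (tay B τ f).map (mkA : B →+* BN) :=
    fun τ => (tay_map mkA τ f).symm
  have hker : (condMatrix C BN JN ((finPt N).map (ρ : FinRing W (D ⊕ D ⊕ S) N →+* BN) hρ)).mulVec fN = 0 := by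
    rw [mulVec_condMatrix_eq_zero_iff]
    refine ⟨fun d => ?_, fun s' => ?_, ?_⟩
    · rw [hx, hy, htay]
      exact dvd_map₂ (mkA : B →+* BN) (h1 d)
    · rw [hz, htay]
      exact dvd_map (mkA : B →+* BN) (h2 s')
    · have h5 := congrArg (fun v : ν → B => fun n => mkA (v n)) h3
      funext n
      have h6 := congrFun h5 n
      simp only [Matrix.mulVec, dotProduct, Matrix.map_apply, map_sum, map_mul, Pi.zero_apply,
        map_zero, AlgHom.commutes] at h6 ⊢
      exact h6
  -- the unit coordinate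
  have hc : ∀ b : BN, fN sB.i0 * b = 0 → b = 0 := by
    obtain ⟨i1, hi1⟩ := hf
    have h5 := congrFun (sB.eq_smul_F fN hker) i1
    rw [Pi.smul_apply, smul_eq_mul] at h5
    have h6 : IsUnit (fN i1) := hi1.map mkA
    rw [h5] at h6
    have h7 : IsUnit (fN sB.i0) := isUnit_of_mul_isUnit_left h6
    intro b hb
    exact (h7.mul_right_eq_zero).1 hb
  -- the root
  have hwN : mkA (w o) ∈ JN := Ideal.mem_map_of_mem _ (hw o)
  have hroot : evalM JN (mkA (w o)) hwN (tay BN (C.τO o) fN) = 0 := by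
    rw [evalM_eq_zero_iff, htay]
    exact dvd_map (mkA : B →+* BN) (h4 o)
  have h8 := sB.root_eq fN hker hc o hwN hroot
  rw [ChordSol.map_Wser, ← hQ o] at h8
  have h9 : ρ (Ideal.Quotient.mk _ (Q o))
      = Ideal.Quotient.mk (J ^ (N + 1)) (MvPolynomial.aeval (Pt.coords P) (Q o)) :=
    finEval_mk J N hWJ (Pt.coords P) (Pt.coords_mem P) (Q o)
  rw [h9, hmk] at h8
  exact (Ideal.Quotient.eq).1 h8

end Fermat.Agent.FF2.ChordFin
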