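import Mathlib
import Fermat.Agent.FF2.ChordFin.Congr

/-!
# Finite-level chord, file 4: the two shapes and the composite of two chords

* `chord_congruence_double` : only DOUBLE conditions (`S = Empty`): polynomials in
  `MvPolynomial (D ⊕ D) W`, `w o ≡ Q o (x, y) mod J^(N+1)`   (first chord);
* `chord_congruence_single` : only SINGLE conditions (`D = Empty`): polynomials in
  `MvPolynomial S W`, `v o ≡ Q o (z) mod J^(N+1)`   (return chord);
* `aeval_sub_aeval_mem` : polynomial congruence `a ≡ b mod I ⇒ Q(a) ≡ Q(b) mod I`;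
* `two_chord_congruence` : the composite `v o ≡ (Q₂ o)(Q₁(x, y)) mod J^(N+1)`: the addition
  congruence `hadd` consumed by (R2)/Translate, with polynomials over `W` depending only on the
  chord data and `N`.
-/

set_option autoImplicit false
set_option linter.unusedSectionVars false

namespace Fermat.Agent.FF2.ChordFin

open IsLocalRing PowerSeries Fermat.Agent.FF2.Chord

variable {W : Type*} [CommRing W] [IsLocalRing W]

/-- Polynomial congruence. -/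
theorem aeval_sub_aeval_mem {B : Type*} [CommRing B] [Algebra W B] (I : Ideal B) {σ : Type*}
    (a b : σ → B) (h : ∀ v, a v - b v ∈ I) (Q : MvPolynomial σ W) :
    MvPolynomial.aeval a Q - MvPolynomial.aeval b Q ∈ I := by
  rw [← Ideal.Quotient.eq]
  have h1 : ∀ c : σ → B, Ideal.Quotient.mk I (MvPolynomial.aeval c Q)
      = MvPolynomial.aeval (fun v => Ideal.Quotient.mk I (c v)) Q := by
    intro c
    have := MvPolynomial.comp_aeval_apply (R := W) (f := c) (φ := Ideal.Quotient.mkₐ W I) Q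
    simpa using this
  rw [h1 a, h1 b]
  have h2 : (fun v => Ideal.Quotient.mk I (a v)) = fun v => Ideal.Quotient.mk I (b v) :=
    funext fun v => (Ideal.Quotient.eq).2 (h v)
  rw [h2]

variable {ι D S ν O : Type*} [Fintype ι] [Fintype D] [Fintype S] [Fintype ν] [DecidableEq D]
  [DecidableEq S] [DecidableEq ν]

/-- **First chord**: double conditions only. -/
theorem chord_congruence_double (C : ChordData W ι D Empty ν O)
    (hcard : Fintype.card ι = Fintype.card (D ⊕ D ⊕ Empty ⊕ ν) + 1)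
    (H1 : Function.Surjective ((cond0 C).map (residue W)).mulVecLin)
    (f0 : ι → W) (hf0u : ∃ i, IsUnit (f0 i))
    (hf0 : ∀ c, (cond0 C).mulVec f0 c ∈ maximalIdeal W)
    (hO0 : ∀ o, ∑ i, f0 i * coeff 0 (C.τO o i) ∈ maximalIdeal W)
    (hO1 : ∀ o, IsUnit (∑ i, f0 i * coeff 1 (C.τO o i))) (N : ℕ) :
    ∃ Q : O → MvPolynomial (D ⊕ D) W,
      ∀ {B : Type*} [CommRing B] [Algebra W B] (J : Ideal B)
        (_hWJ : ∀ w ∈ maximalIdeal W, algebraMap W B w ∈ J) (x y : D → B)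
        (_hx : ∀ d, x d ∈ J) (_hy : ∀ d, y d ∈ J) (f : ι → B)
        (_hf : ∃ i, IsUnit (f i)) (w : O → B) (_hw : ∀ o, w o ∈ J)
        (_h1 : ∀ d, (PowerSeries.X - PowerSeries.C (x d)) *
          (PowerSeries.X - PowerSeries.C (y d)) ∣ tay B (C.τD d) f)
        (_h3 : (C.ρ0.map (algebraMap W B)).mulVec f = 0)
        (_h4 : ∀ o, (PowerSeries.X - PowerSeries.C (w o)) ∣ tay B (C.τO o) f) (o : O),
        w o - MvPolynomial.aeval (Sum.elim x y) (Q o) ∈ J ^ (N + 1) := by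
  obtain ⟨Q, hQ⟩ := chord_congruence C hcard H1 f0 hf0u hf0 hO0 hO1 N
  let e : D ⊕ D ⊕ Empty → D ⊕ D := Sum.elim Sum.inl (Sum.elim Sum.inr Empty.elim)
  refine ⟨fun o => MvPolynomial.rename e (Q o), ?_⟩
  intro B _ _ J hWJ x y hx hy f hf w hw h1 h3 h4 o
  let P : Pt B J D Empty :=
    { x := x, y := y, z := Empty.elim, hx := hx, hy := hy, hz := fun s => s.elim }
  have h := hQ J hWJ P f hf w hw h1 (fun s => s.elim) h3 h4 o
  rw [MvPolynomial.aeval_rename]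
  have hco : (Sum.elim x y ∘ e : D ⊕ D ⊕ Empty → B) = Pt.coords P := by
    funext v
    rcases v with d | d | s
    · rfl
    · rfl
    · exact s.elim
  rw [hco]
  exact h

/-- **Return chord**: single conditions only. -/
theorem chord_congruence_single (C : ChordData W ι Empty S ν O)
    (hcard : Fintype.card ι = Fintype.card (Empty ⊕ Empty ⊕ S ⊕ ν) + 1)
    (H1 : Function.Surjective ((cond0 C).map (residue W)).mulVecLin)
    (f0 : ι → W) (hf0u : ∃ i, IsUnit (f0 i))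
    (hf0 : ∀ c, (cond0 C).mulVec f0 c ∈ maximalIdeal W)
    (hO0 : ∀ o, ∑ i, f0 i * coeff 0 (C.τO o i) ∈ maximalIdeal W)
    (hO1 : ∀ o, IsUnit (∑ i, f0 i * coeff 1 (C.τO o i))) (N : ℕ) :
    ∃ Q : O → MvPolynomial S W,
      ∀ {B : Type*} [CommRing B] [Algebra W B] (J : Ideal B)
        (_hWJ : ∀ w ∈ maximalIdeal W, algebraMap W B w ∈ J) (z : S → B)
        (_hz : ∀ s, z s ∈ J) (f : ι → B)
        (_hf : ∃ i, IsUnit (f i)) (w : O → B) (_hw : ∀ o, w o ∈ J)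
        (_h2 : ∀ s, (PowerSeries.X - PowerSeries.C (z s)) ∣ tay B (C.τS s) f)
        (_h3 : (C.ρ0.map (algebraMap W B)).mulVec f = 0)
        (_h4 : ∀ o, (PowerSeries.X - PowerSeries.C (w o)) ∣ tay B (C.τO o) f) (o : O),
        w o - MvPolynomial.aeval z (Q o) ∈ J ^ (N + 1) := by
  obtain ⟨Q, hQ⟩ := chord_congruence C hcard H1 f0 hf0u hf0 hO0 hO1 N
  let e : Empty ⊕ Empty ⊕ S → S := Sum.elim Empty.elim (Sum.elim Empty.elim id)
  refine ⟨fun o => MvPolynomial.rename e (Q o), ?_⟩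
  intro B _ _ J hWJ z hz f hf w hw h2 h3 h4 o
  let P : Pt B J Empty S :=
    { x := Empty.elim, y := Empty.elim, z := z, hx := fun d => d.elim, hy := fun d => d.elim,
      hz := hz }
  have h := hQ J hWJ P f hf w hw (fun d => d.elim) h2 h3 h4 o
  rw [MvPolynomial.aeval_rename]
  have hco : (z ∘ e : Empty ⊕ Empty ⊕ S → B) = Pt.coords P := by
    funext v
    rcases v with d | d | s
    · exact d.elim
    · exact d.elim
    · rfl
  rw [hco]
  exact h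

/-- **TWO CHORDS**: the composite congruence `v ≡ Q(x, y) mod J^(N+1)`.  First chord: inputs
`(x, y)` (double conditions on `D`), outputs `w : O₁ → J`.  Return chord: inputs `w` (single
conditions on `O₁`), outputs `v : O₂ → J`. -/
theorem two_chord_congruence {ι₁ ι₂ ν₁ ν₂ O₁ O₂ : Type*} [Fintype ι₁] [Fintype ι₂] [Fintype ν₁]
    [Fintype ν₂] [Fintype O₁] [DecidableEq ν₁] [DecidableEq ν₂] [DecidableEq O₁]
    (C₁ : ChordData W ι₁ D Empty ν₁ O₁)
    (hcard₁ : Fintype.card ι₁ = Fintype.card (D ⊕ D ⊕ Empty ⊕ ν₁) + 1)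
    (H1₁ : Function.Surjective ((cond0 C₁).map (residue W)).mulVecLin)
    (f0₁ : ι₁ → W) (hf0u₁ : ∃ i, IsUnit (f0₁ i))
    (hf0₁ : ∀ c, (cond0 C₁).mulVec f0₁ c ∈ maximalIdeal W)
    (hO0₁ : ∀ o, ∑ i, f0₁ i * coeff 0 (C₁.τO o i) ∈ maximalIdeal W)
    (hO1₁ : ∀ o, IsUnit (∑ i, f0₁ i * coeff 1 (C₁.τO o i)))
    (C₂ : ChordData W ι₂ Empty O₁ ν₂ O₂)
    (hcard₂ : Fintype.card ι₂ = Fintype.card (Empty ⊕ Empty ⊕ O₁ ⊕ ν₂) + 1)
    (H1₂ : Function.Surjective ((cond0 C₂).map (residue W)).mulVecLin)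
    (f0₂ : ι₂ → W) (hf0u₂ : ∃ i, IsUnit (f0₂ i))
    (hf0₂ : ∀ c, (cond0 C₂).mulVec f0₂ c ∈ maximalIdeal W)
    (hO0₂ : ∀ o, ∑ i, f0₂ i * coeff 0 (C₂.τO o i) ∈ maximalIdeal W)
    (hO1₂ : ∀ o, IsUnit (∑ i, f0₂ i * coeff 1 (C₂.τO o i))) (N : ℕ) :
    ∃ Q : O₂ → MvPolynomial (D ⊕ D) W,
      ∀ {B : Type*} [CommRing B] [Algebra W B] (J : Ideal B)
        (_hWJ : ∀ w ∈ maximalIdeal W, algebraMap W B w ∈ J) (x y : D → B)
        (_hx : ∀ d, x d ∈ J) (_hy : ∀ d, y d ∈ J)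
        (f₁ : ι₁ → B) (_hf₁ : ∃ i, IsUnit (f₁ i)) (w : O₁ → B) (_hw : ∀ o, w o ∈ J)
        (_h1 : ∀ d, (PowerSeries.X - PowerSeries.C (x d)) *
          (PowerSeries.X - PowerSeries.C (y d)) ∣ tay B (C₁.τD d) f₁)
        (_h3 : (C₁.ρ0.map (algebraMap W B)).mulVec f₁ = 0)
        (_h4 : ∀ o, (PowerSeries.X - PowerSeries.C (w o)) ∣ tay B (C₁.τO o) f₁)
        (f₂ : ι₂ → B) (_hf₂ : ∃ i, IsUnit (f₂ i)) (v : O₂ → B) (_hv : ∀ o, v o ∈ J)
        (_h2' : ∀ o, (PowerSeries.X - PowerSeries.C (w o)) ∣ tay B (C₂.τS o) f₂)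
        (_h3' : (C₂.ρ0.map (algebraMap W B)).mulVec f₂ = 0)
        (_h4' : ∀ o, (PowerSeries.X - PowerSeries.C (v o)) ∣ tay B (C₂.τO o) f₂) (o : O₂),
        v o - MvPolynomial.aeval (Sum.elim x y) (Q o) ∈ J ^ (N + 1) := by
  obtain ⟨Q₁, hQ₁⟩ := chord_congruence_double C₁ hcard₁ H1₁ f0₁ hf0u₁ hf0₁ hO0₁ hO1₁ N
  obtain ⟨Q₂, hQ₂⟩ := chord_congruence_single C₂ hcard₂ H1₂ f0₂ hf0u₂ hf0₂ hO0₂ hO1₂ N
  refine ⟨fun o => MvPolynomial.bind₁ Q₁ (Q₂ o), ?_⟩
  intro B _ _ J hWJ x y hx hy f₁ hf₁ w hw h1 h3 h4 f₂ hf₂ v hv h2' h3' h4' o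
  have hA := hQ₁ J hWJ x y hx hy f₁ hf₁ w hw h1 h3 h4
  have hB := hQ₂ J hWJ w hw f₂ hf₂ v hv h2' h3' h4' o
  have hC := aeval_sub_aeval_mem (W := W) (J ^ (N + 1)) w
    (fun o₁ => MvPolynomial.aeval (Sum.elim x y) (Q₁ o₁)) hA (Q₂ o)
  have hD : MvPolynomial.aeval (Sum.elim x y) (MvPolynomial.bind₁ Q₁ (Q₂ o))
      = MvPolynomial.aeval (fun o₁ => MvPolynomial.aeval (Sum.elim x y) (Q₁ o₁)) (Q₂ o) := by
    rw [MvPolynomial.aeval_bind₁]
  rw [hD]
  have := (J ^ (N + 1)).add_mem hB hC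
  rwa [sub_add_sub_cancel] at this

end Fermat.Agent.FF2.ChordFin
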